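import Mathlib
import Fermat.Agent.S30.Analytic.Character
import Fermat.Agent.S24.RepHom
import Fermat.Prelude.Def_ModularCurve_HeckeModule

/-!
# PROJECT J (S30): interface definitions (helper17, chief architect J)

Definitions only; every slice of J states its deliverable against these.

* `IsParChar ψ`, `IsEllFree ψ` for `ψ : Gamma0 N →* ℂˣ`; `charGroup N` the subgroup `X` of characters
  that are parabolic and trivial on elements of finite order;
* `FC N := laurentBaseChange ℂ (modularFunctionFieldFull N)`;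
* `IsPsiOf N x ψ` (`x : Pic0 ℂ (FC N)`): the analytic dictionary `Ψ` as a relation;
* `IsPhiOf N ι x ψ` (`x : JZero N`, `ι : ℚ̄ →+* ℂ`): the same relation on the `ℚ̄` side, `Φ = Ψ ∘ ext`;
* `PsiDict N`, `PhiDict N ι`: the list of properties to be proved.
-/

set_option autoImplicit false

noncomputable section

namespace Fermat.Agent.S30.Spec

open UpperHalfPlane ModularForm AlgebraicCurve ModularCurve CongruenceSubgroup
open scoped Manifold MatrixGroups ModularForm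
open Fermat.Agent.S30.Analytic.Character Fermat.Agent.S24.RepHom

local notation "Kb" => AlgebraicClosure ℚ

section Characters

variable {N : ℕ}

/-- `ψ` kills the parabolic elements (and `± 1`): same shape as the Prelude `IsParabolicHom`. -/
def IsParChar (ψ : Gamma0 N →* ℂˣ) : Prop :=
  ∀ γ : Gamma0 N, ((γ : SL(2, ℤ)) : Matrix (Fin 2) (Fin 2) ℤ).trace ^ 2 = 4 → ψ γ = 1

/-- `ψ` kills the elements of finite order (the elliptic elements and `± 1`). -/
def IsEllFree (ψ : Gamma0 N →* ℂˣ) : Prop :=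
  ∀ γ : Gamma0 N, IsOfFinOrder γ → ψ γ = 1

theorem IsParChar.one : IsParChar (1 : Gamma0 N →* ℂˣ) := fun _ _ => rfl

theorem IsEllFree.one : IsEllFree (1 : Gamma0 N →* ℂˣ) := fun _ _ => rfl

theorem IsParChar.mul {ψ ψ' : Gamma0 N →* ℂˣ} (h : IsParChar ψ) (h' : IsParChar ψ') :
    IsParChar (ψ * ψ') := fun γ hγ => by
  rw [MonoidHom.mul_apply, h γ hγ, h' γ hγ, one_mul]

theorem IsEllFree.mul {ψ ψ' : Gamma0 N →* ℂˣ} (h : IsEllFree ψ) (h' : IsEllFree ψ') :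
    IsEllFree (ψ * ψ') := fun γ hγ => by
  rw [MonoidHom.mul_apply, h γ hγ, h' γ hγ, one_mul]

theorem IsParChar.inv {ψ : Gamma0 N →* ℂˣ} (h : IsParChar ψ) : IsParChar ψ⁻¹ := fun γ hγ => by
  rw [MonoidHom.inv_apply, h γ hγ, inv_one]

theorem IsEllFree.inv {ψ : Gamma0 N →* ℂˣ} (h : IsEllFree ψ) : IsEllFree ψ⁻¹ := fun γ hγ => by
  rw [MonoidHom.inv_apply, h γ hγ, inv_one]

variable (N) in
/-- the group `X` of characters of `Γ₀(N)` that are parabolic and trivial on torsion -/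
def charGroup : Subgroup (Gamma0 N →* ℂˣ) where
  carrier := {ψ | IsParChar ψ ∧ IsEllFree ψ}
  mul_mem' := fun h h' => ⟨h.1.mul h'.1, h.2.mul h'.2⟩
  one_mem' := ⟨IsParChar.one, IsEllFree.one⟩
  inv_mem' := fun h => ⟨h.1.inv, h.2.inv⟩

theorem mem_charGroup {ψ : Gamma0 N →* ℂˣ} : ψ ∈ charGroup N ↔ IsParChar ψ ∧ IsEllFree ψ :=
  Iff.rfl

end Characters

section Dictionary

variable (N : ℕ) [NeZero N]

/-- the function field of `X₀(N)` over `ℂ` in the Laurent model -/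
abbrev FC : IntermediateField ℂ (LaurentSeries ℂ) :=
  laurentBaseChange ℂ (modularFunctionFieldFull N)

/-- **The analytic dictionary `Ψ` as a relation.** `x` is the class of a divisor `D` of degree zero
with `n D = div f`, the function `f` is the quotient `a / b` of two forms of weight `k`, and `ψ` is
the character of the holomorphic `n`-th roots of `a b ^ (n - 1)`. -/
def IsPsiOf (x : Pic0 ℂ (FC N)) (ψ : Gamma0 N →* ℂˣ) : Prop :=
  ∃ (n : ℕ) (D : Divisor.degZero (K := ℂ) (F := FC N)) (f : FC N) (k : ℤ) (a b : ℍ → ℂ),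
    n ≠ 0 ∧ f ≠ 0 ∧ x = Pic0.mk D ∧
    (∀ v : Place ℂ (FC N), (n : ℤ) * (D : Divisor ℂ (FC N)) v = v.ord f) ∧
    IsRepOf N (f : LaurentSeries ℂ) k a b ∧
    IsRootChar (Gamma0 N) n k (a * b ^ (n - 1)) ψ

/-- **The dictionary `Φ = Ψ ∘ ext` on the `ℚ̄` side as a relation** (`ι : ℚ̄ →+* ℂ` fixed). -/
def IsPhiOf (ι : Kb →+* ℂ) (x : JZero N) (ψ : Gamma0 N →* ℂˣ) : Prop :=
  ∃ (n : ℕ) (D : Divisor.degZero (K := Kb) (F := modularFunctionFieldBar N))
    (f : modularFunctionFieldBar N) (k : ℤ) (a b : ℍ → ℂ),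
    n ≠ 0 ∧ f ≠ 0 ∧ x = Pic0.mk D ∧
    (∀ v : Place Kb (modularFunctionFieldBar N),
      (n : ℤ) * (D : Divisor Kb (modularFunctionFieldBar N)) v = v.ord f) ∧
    IsRepOf N (coeffMap ι (f : LaurentSeries Kb)) k a b ∧
    IsRootChar (Gamma0 N) n k (a * b ^ (n - 1)) ψ

/-- the deliverable of J-1 (`exists`, `unique`, `add`, `injective`, `mem`) and J-2 (`surj`) -/
structure PsiDict : Prop where
  exists_of_torsion : ∀ x : Pic0 ℂ (FC N), (∃ n : ℕ, n ≠ 0 ∧ n • x = 0) → ∃ ψ, IsPsiOf N x ψ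
  unique : ∀ x ψ ψ', IsPsiOf N x ψ → IsPsiOf N x ψ' → ψ = ψ'
  add : ∀ x y ψ ψ', IsPsiOf N x ψ → IsPsiOf N y ψ' → IsPsiOf N (x + y) (ψ * ψ')
  injective : ∀ x, IsPsiOf N x 1 → x = 0
  mem : ∀ x ψ, IsPsiOf N x ψ → ψ ∈ charGroup N ∧ IsOfFinOrder ψ
  surj : ∀ ψ, ψ ∈ charGroup N → IsOfFinOrder ψ → ∃ x, IsPsiOf N x ψ

/-- the same list on the `ℚ̄` side: the deliverable of J-1 + J-2 + J-3 (descent) -/
structure PhiDict (ι : Kb →+* ℂ) : Prop where
  exists_of_torsion : ∀ x : JZero N, (∃ n : ℕ, n ≠ 0 ∧ n • x = 0) → ∃ ψ, IsPhiOf N ι x ψ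
  unique : ∀ x ψ ψ', IsPhiOf N ι x ψ → IsPhiOf N ι x ψ' → ψ = ψ'
  add : ∀ x y ψ ψ', IsPhiOf N ι x ψ → IsPhiOf N ι y ψ' → IsPhiOf N ι (x + y) (ψ * ψ')
  injective : ∀ x, IsPhiOf N ι x 1 → x = 0
  mem : ∀ x ψ, IsPhiOf N ι x ψ → ψ ∈ charGroup N ∧ IsOfFinOrder ψ
  surj : ∀ ψ, ψ ∈ charGroup N → IsOfFinOrder ψ → ∃ x, IsPhiOf N ι x ψ

end Dictionary

end Fermat.Agent.S30.Spec
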